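import Fermat.Prelude.Def_ModularCurve_ArithmeticGalois
import Fermat.Prelude.Def_ModularCurve_ModularUnit
import Fermat.Agent.S24.Alg.LocPlace

/-!
# S15 / piece CUSP (architect helper362): definitions

* `cuspInfty N` : the place `∞` of `ℚ̄(X₀(N))`, cut out by the `q`-adic order on `ℚ̄((q))`.
* `jBar N`, `jLevelBar N` : the functions `j(q)`, `j(q^N)` as elements of the function field.

Everything in this file is sorry-free.
-/

set_option autoImplicit false

noncomputable section

open AlgebraicCurve ModularCurve HahnSeries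

namespace Fermat.Agent.S15.H362

/-- The base field `ℚ̄`. -/
abbrev Qb : Type := AlgebraicClosure ℚ

/-- The function field of `X₀(N)` over `ℚ̄`, as a type. -/
abbrev FB (N : ℕ) : Type := ↥(modularFunctionFieldBar N)

/-- The tautological embedding `ℚ̄(X₀(N)) → ℚ̄((q))`. -/
def inclQ (N : ℕ) : FB N →+* LaurentSeries Qb :=
  (modularFunctionFieldBar N).val.toRingHom

@[simp] theorem inclQ_apply (N : ℕ) (f : FB N) : inclQ N f = (f : LaurentSeries Qb) := rfl

/-- `j(q)` as an element of `ℚ̄(X₀(N))`. -/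
def jBar (N : ℕ) [NeZero N] : FB N :=
  ⟨coeffEmb Qb jq,
    coeffEmb_mem_laurentBaseChange Qb (modularFunctionField_le_full N (jq_mem N))⟩

/-- `j(q^N)` as an element of `ℚ̄(X₀(N))`. -/
def jLevelBar (N : ℕ) [NeZero N] : FB N :=
  ⟨coeffEmb Qb (qExpand ℚ N jq),
    coeffEmb_mem_laurentBaseChange Qb (modularFunctionField_le_full N (jqN_mem N))⟩

@[simp] theorem coe_jBar (N : ℕ) [NeZero N] :
    ((jBar N : FB N) : LaurentSeries Qb) = coeffEmb Qb jq := rfl

@[simp] theorem coe_jLevelBar (N : ℕ) [NeZero N] :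
    ((jLevelBar N : FB N) : LaurentSeries Qb) = coeffEmb Qb (qExpand ℚ N jq) := rfl

theorem coeffEmb_jq_coeff_neg_one : (coeffEmb Qb jq).coeff (-1) = 1 := by
  rw [coeffEmb_coeff, coeff_jq_neg_one, map_one]

theorem coeffEmb_jq_ne_zero : coeffEmb Qb jq ≠ 0 := fun h => by
  have := coeffEmb_jq_coeff_neg_one
  rw [h] at this
  simp at this

theorem order_coeffEmb_jq : (coeffEmb Qb jq).order = -1 := by
  refine le_antisymm (HahnSeries.order_le_of_coeff_ne_zero ?_) ?_
  · rw [coeffEmb_jq_coeff_neg_one]; exact one_ne_zero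
  · by_contra hlt
    rw [not_le] at hlt
    apply coeffEmb_jq_ne_zero
    rw [← HahnSeries.coeff_order_eq_zero, coeffEmb_coeff, coeff_jq_of_lt (by omega), map_zero]

theorem order_algebraMap_nonneg (N : ℕ) (c : Qb) :
    0 ≤ (inclQ N (algebraMap Qb (FB N) c)).order := by
  have h : inclQ N (algebraMap Qb (FB N) c) = algebraMap Qb (LaurentSeries Qb) c := rfl
  rw [h, algebraMap_laurentSeries_eq_single]
  by_cases hc : c = 0
  · simp [hc]
  · rw [HahnSeries.order_single hc]

/-- **The cusp `∞`**: the place of `ℚ̄(X₀(N))` cut out by the `q`-adic order. -/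
def cuspInfty (N : ℕ) [NeZero N] : Place Qb (FB N) :=
  Fermat.Agent.S24.H144.placeOfEmb (K := Qb) (inclQ N) (order_algebraMap_nonneg N)
    ⟨jBar N, by rw [inclQ_apply, coe_jBar, order_coeffEmb_jq]; norm_num⟩

theorem mem_cuspInfty_iff (N : ℕ) [NeZero N] (f : FB N) :
    f ∈ (cuspInfty N).toValuationSubring ↔ 0 ≤ (f : LaurentSeries Qb).order :=
  Iff.rfl

/-- The modular unit `Δ(q)/Δ(q^p)` with coefficients in `ℚ̄`. -/
def unitSeriesBar (p : ℕ) [NeZero p] : LaurentSeries Qb := coeffEmb Qb (modularUnitSeries p)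

end Fermat.Agent.S15.H362
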