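import Fermat.Agent.S15.H362.CuspLevel
import Fermat.Agent.S37.H218.Degree

/-!
# S15 / piece CUSP (helper362): **K8** — the cuspidal class is Eisenstein

For primes `ℓ ≠ p`:
* `restrictAlpha_cuspInfty`, `restrictAlpha_cuspZero` : a place of `X₀(pℓ)` over `∞` (resp. `0`)
  along `β` lies over `∞` (resp. `0`) along `α`;
* `heckeDivBar_cuspInfty`, `heckeDivBar_cuspZero` : `T_ℓ (n[∞]) = n(ℓ+1)[∞]`, same for `0`;
* `heckeOperatorBar_cuspClass` : `T_ℓ c = (1 + ℓ) c` for `c = cl((0) - (∞))`;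
* `isEisensteinClass_cuspClass : Core.IsEisensteinClass (cuspClass p)`.

Sorry-free.
-/

set_option autoImplicit false
set_option synthInstance.maxHeartbeats 400000
set_option linter.style.haveILetI false

noncomputable section

open AlgebraicCurve ModularCurve HahnSeries

namespace Fermat.Agent.S15.H362

variable (p ℓ : ℕ) [NeZero p] [NeZero ℓ]

/-- The four pole orders at a cusp of `X₀(pℓ)`: relations coming from level `ℓ`. -/
theorem cusp_relations_level (hℓ : ℓ.Prime) (W : Place Qb (FB (p * ℓ)))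
    (h : W.ord (gammaL p ℓ (jBar ℓ)) < 0 ∨ W.ord (gammaL p ℓ (jLevelBar ℓ)) < 0) :
    W.ord (gammaL p ℓ (jBar ℓ)) < 0 ∧ W.ord (gammaL p ℓ (jLevelBar ℓ)) < 0 ∧
      (W.ord (gammaL p ℓ (jLevelBar ℓ)) = ℓ * W.ord (gammaL p ℓ (jBar ℓ)) ∨
        W.ord (gammaL p ℓ (jBar ℓ)) = ℓ * W.ord (gammaL p ℓ (jLevelBar ℓ))) := by
  have hℓ0 : (0 : ℤ) < ℓ := by exact_mod_cast hℓ.pos
  rcases cusp_ratio ℓ hℓ (gammaL p ℓ) (gammaL_integral p ℓ) W h with ⟨-, h1, h2⟩ | ⟨-, h1, h2⟩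
  · refine ⟨h1, ?_, Or.inl h2⟩
    rw [h2]; exact mul_neg_of_pos_of_neg hℓ0 h1
  · refine ⟨?_, h1, Or.inr h2⟩
    rw [h2]; exact mul_neg_of_pos_of_neg hℓ0 h1

theorem cusp_relations_level' (hℓ : ℓ.Prime) (W : Place Qb (FB (p * ℓ)))
    (h : W.ord (deltaL p ℓ (jBar ℓ)) < 0 ∨ W.ord (deltaL p ℓ (jLevelBar ℓ)) < 0) :
    W.ord (deltaL p ℓ (jBar ℓ)) < 0 ∧ W.ord (deltaL p ℓ (jLevelBar ℓ)) < 0 ∧
      (W.ord (deltaL p ℓ (jLevelBar ℓ)) = ℓ * W.ord (deltaL p ℓ (jBar ℓ)) ∨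
        W.ord (deltaL p ℓ (jBar ℓ)) = ℓ * W.ord (deltaL p ℓ (jLevelBar ℓ))) := by
  have hℓ0 : (0 : ℤ) < ℓ := by exact_mod_cast hℓ.pos
  rcases cusp_ratio ℓ hℓ (deltaL p ℓ) (deltaL_integral p ℓ) W h with ⟨-, h1, h2⟩ | ⟨-, h1, h2⟩
  · refine ⟨h1, ?_, Or.inl h2⟩
    rw [h2]; exact mul_neg_of_pos_of_neg hℓ0 h1
  · refine ⟨?_, h1, Or.inr h2⟩
    rw [h2]; exact mul_neg_of_pos_of_neg hℓ0 h1

/-- **Key lemma at `∞`.** -/
theorem restrictAlpha_cuspInfty (hp : p.Prime) (hℓ : ℓ.Prime) (hne : ℓ ≠ p)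
    (hα : HeckeAlphaBarIntegral Qb p ℓ) (hβ : HeckeBetaBarIntegral Qb p ℓ)
    (W : Place Qb (FB (p * ℓ)))
    (hW : W.restrictAlong (heckeBetaBar Qb p ℓ) hβ = cuspInfty p) :
    W.restrictAlong (heckeAlphaBar Qb p ℓ) hα = cuspInfty p := by
  obtain ⟨hb, hd⟩ := ord_of_restrict_eq_cuspInfty p (heckeBetaBar Qb p ℓ) hβ W hW
  rw [beta_jBar] at hb hd
  rw [beta_jLevelBar] at hd
  obtain ⟨ha, -, h3⟩ := cusp_relations_level p ℓ hℓ W (Or.inr hb)
  rcases cusp_ratio p hp (heckeAlphaBar Qb p ℓ) hα W (Or.inl (by rw [alpha_jBar]; exact ha))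
    with ⟨h, -⟩ | ⟨-, hc, h2⟩
  · exact h
  · exfalso
    rw [alpha_jBar, alpha_jLevelBar] at h2
    rw [alpha_jLevelBar] at hc
    obtain ⟨-, -, h4⟩ := cusp_relations_level' p ℓ hℓ W (Or.inl hc)
    have hP : (1 : ℤ) < p := by exact_mod_cast hp.one_lt
    have hL : (1 : ℤ) < ℓ := by exact_mod_cast hℓ.one_lt
    have hPL : (p : ℤ) ≠ ℓ := by exact_mod_cast hne.symm
    exact no_mixed_cusp_aux hP hL hPL hc hd h2 h3 h4

/-- **Key lemma at `0`.** -/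
theorem restrictAlpha_cuspZero (hp : p.Prime) (hℓ : ℓ.Prime) (hne : ℓ ≠ p)
    (hα : HeckeAlphaBarIntegral Qb p ℓ) (hβ : HeckeBetaBarIntegral Qb p ℓ)
    (W : Place Qb (FB (p * ℓ)))
    (hW : W.restrictAlong (heckeBetaBar Qb p ℓ) hβ = cuspZero p) :
    W.restrictAlong (heckeAlphaBar Qb p ℓ) hα = cuspZero p := by
  obtain ⟨hd, hb⟩ := ord_of_restrict_eq_cuspZero p (heckeBetaBar Qb p ℓ) hβ W hW
  rw [beta_jLevelBar] at hd hb
  rw [beta_jBar] at hb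
  obtain ⟨hc, -, h4⟩ := cusp_relations_level' p ℓ hℓ W (Or.inr hd)
  rcases cusp_ratio p hp (heckeAlphaBar Qb p ℓ) hα W
    (Or.inr (by rw [alpha_jLevelBar]; exact hc)) with ⟨-, ha, h2⟩ | ⟨h, -⟩
  · exfalso
    rw [alpha_jBar, alpha_jLevelBar] at h2
    rw [alpha_jBar] at ha
    obtain ⟨-, -, h3⟩ := cusp_relations_level p ℓ hℓ W (Or.inl ha)
    have hP : (1 : ℤ) < p := by exact_mod_cast hp.one_lt
    have hL : (1 : ℤ) < ℓ := by exact_mod_cast hℓ.one_lt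
    have hPL : (p : ℤ) ≠ ℓ := by exact_mod_cast hne.symm
    exact no_mixed_cusp_aux hP hL hPL ha hb h2 h4 h3
  · exact h

/-- `T_ℓ` on a multiple of a place `P` all of whose `β`-preimages lie over `P` along `α`. -/
theorem heckeDivBar_single_of_fixed (hℓ : ℓ.Prime) (hN : ¬ ℓ ∣ p)
    (hα : HeckeAlphaBarIntegral Qb p ℓ) (hβ : HeckeBetaBarIntegral Qb p ℓ)
    (P : Place Qb (FB p))
    (hP : ∀ W : Place Qb (FB (p * ℓ)), W.restrictAlong (heckeBetaBar Qb p ℓ) hβ = P →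
      W.restrictAlong (heckeAlphaBar Qb p ℓ) hα = P) (n : ℤ) :
    heckeDivBar hα hβ (Finsupp.single P n) = Finsupp.single P (n * ((ℓ : ℤ) + 1)) := by
  classical
  rw [Fermat.Agent.Lib.FF398.heckeDivBar_single p ℓ hα hβ P n]
  have h1 : ∀ W ∈ Place.fiberAlong (heckeBetaBar Qb p ℓ) hβ P,
      Finsupp.single (W.restrictAlong (heckeAlphaBar Qb p ℓ) hα)
          (n * (W.ramificationIndexAlong (heckeBetaBar Qb p ℓ) : ℤ)) =
        Finsupp.single P (n * (W.ramificationIndexAlong (heckeBetaBar Qb p ℓ) : ℤ)) := by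
    intro W hW
    rw [hP W (Place.mem_fiberAlong.mp hW)]
  rw [Finset.sum_congr rfl h1, ← Finsupp.single_finsetSum, ← Finset.mul_sum,
    Fermat.Agent.Lib.FF398.sum_ramificationIndexAlong_beta p ℓ hβ P,
    Fermat.Agent.S37.H218.finrankAlong_heckeBetaBar_of_not_dvd p ℓ hℓ hN]
  push_cast
  rfl

theorem not_dvd_of_prime_ne {p ℓ : ℕ} (hp : p.Prime) (hℓ : ℓ.Prime) (hne : ℓ ≠ p) : ¬ ℓ ∣ p := by
  intro h
  rcases (Nat.dvd_prime hp).mp h with h1 | h1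
  · exact hℓ.one_lt.ne' h1
  · exact hne h1

/-- `T_ℓ ((0) - (∞)) = (ℓ + 1) ((0) - (∞))` on divisors. -/
theorem heckeDivBar_cuspDivisor (hp : p.Prime) (hℓ : ℓ.Prime) (hne : ℓ ≠ p)
    (hα : HeckeAlphaBarIntegral Qb p ℓ) (hβ : HeckeBetaBarIntegral Qb p ℓ) :
    heckeDivBar hα hβ (Finsupp.single (cuspZero p) (1 : ℤ) - Finsupp.single (cuspInfty p) 1) =
      ((1 + ℓ : ℕ) : ℤ) • (Finsupp.single (cuspZero p) (1 : ℤ) - Finsupp.single (cuspInfty p) 1) := by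
  have hN := not_dvd_of_prime_ne hp hℓ hne
  rw [map_sub,
    heckeDivBar_single_of_fixed p ℓ hℓ hN hα hβ (cuspZero p)
      (restrictAlpha_cuspZero p ℓ hp hℓ hne hα hβ) 1,
    heckeDivBar_single_of_fixed p ℓ hℓ hN hα hβ (cuspInfty p)
      (restrictAlpha_cuspInfty p ℓ hp hℓ hne hα hβ) 1,
    smul_sub, Finsupp.smul_single, Finsupp.smul_single, smul_eq_mul, one_mul, mul_one]
  push_cast
  rw [add_comm]

/-- **K8.** `T_q c = (1 + q) c` for the cuspidal class `c` and every prime `q ≠ p`. -/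
theorem heckeOperatorBar_cuspClass (hp : p.Prime) (q : Nat.Primes) (hne : (q : ℕ) ≠ p) :
    heckeOperatorBar p q (cuspClass p) = ((1 + (q : ℕ) : ℕ) : ℤ) • cuspClass p := by
  haveI : NeZero (q : ℕ) := ⟨q.2.ne_zero⟩
  rw [cuspClass, Fermat.Agent.Lib.FF398.heckeOperatorBar_mk p q (cuspDivisor p)]
  have h : Pic0.degZeroCorrespondence (heckeBetaBar Qb p q) (heckeAlphaBar Qb p q)
      (Fermat.Agent.Lib.FF398.heckeBetaBarIntegral p q)
      (Fermat.Agent.Lib.FF398.heckeAlphaBarIntegral p q)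
      (Fermat.Agent.Lib.FF398.fundamentalIdentityAlong_beta p q) (cuspDivisor p) =
      ((1 + (q : ℕ) : ℕ) : ℤ) • cuspDivisor p := by
    apply Subtype.ext
    exact heckeDivBar_cuspDivisor p q hp q.2 hne
      (Fermat.Agent.Lib.FF398.heckeAlphaBarIntegral p q)
      (Fermat.Agent.Lib.FF398.heckeBetaBarIntegral p q)
  rw [h]
  rfl

/-- **K8** in the form of `Core/Top.lean`. -/
theorem isEisensteinClass_cuspClass (hp : p.Prime) :
    Fermat.Agent.S15.Core.IsEisensteinClass (cuspClass p) :=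
  fun q hq => heckeOperatorBar_cuspClass p hp q hq

/-- **K8** with natural-number multiples. -/
theorem heckeOperatorBar_cuspClass_nsmul (hp : p.Prime) (q : Nat.Primes) (hne : (q : ℕ) ≠ p) :
    heckeOperatorBar p q (cuspClass p) = (1 + (q : ℕ)) • cuspClass p := by
  rw [heckeOperatorBar_cuspClass p hp q hne, natCast_zsmul]

end Fermat.Agent.S15.H362
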