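import Fermat.Agent.S15.H362.CuspZero

/-!
# S15 / piece CUSP (helper362): orders of `j`, `j(q^p)` at the two cusps

* K1 `ord_cuspInfty` : `ord_∞ f = ord_q f`;
* `ord_cuspInfty_jBar = -1`, `ord_cuspInfty_jLevelBar = -N`;
* `ord_cuspZero_jBar = -N`, `ord_cuspZero_jLevelBar = -1`;
* K9 `isCuspZero_cuspZero` : for `1 < N` the cusp `0` is a pole of `j` different from `∞`.

Sorry-free.
-/

set_option autoImplicit false
set_option synthInstance.maxHeartbeats 400000

noncomputable section

open AlgebraicCurve ModularCurve HahnSeries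

namespace Fermat.Agent.S15.H362

open Fermat.Agent.A2.H528

/-- `coeffEmb` preserves the order. -/
theorem order_coeffEmb (x : LaurentSeries ℚ) : (coeffEmb Qb x).order = x.order := by
  classical
  have hinj : Function.Injective (algebraMap ℚ Qb) := (algebraMap ℚ Qb).injective
  rcases eq_or_ne x 0 with rfl | hx
  · simp
  have hx' : coeffEmb Qb x ≠ 0 := by
    intro h
    apply hx
    ext k
    have := congrArg (fun y => HahnSeries.coeff y k) h
    simp only [coeffEmb_coeff, HahnSeries.coeff_zero] at this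
    rw [HahnSeries.coeff_zero]
    exact hinj (by rw [this, map_zero])
  have hsupp : (coeffEmb Qb x).support = x.support := by
    ext k
    simp only [HahnSeries.mem_support, coeffEmb_coeff, ne_eq]
    rw [map_eq_zero_iff _ hinj]
  rw [HahnSeries.order_of_ne hx', HahnSeries.order_of_ne hx]
  congr 1

theorem isMonicOfOrder_jq : IsMonicOfOrder jq (-1) := by
  have hne : jq ≠ 0 := jq_ne_zero
  have horder : jq.order = -1 := by
    refine le_antisymm (HahnSeries.order_le_of_coeff_ne_zero ?_) ?_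
    · rw [coeff_jq_neg_one]; exact one_ne_zero
    · by_contra hlt
      rw [not_le] at hlt
      apply hne
      rw [← HahnSeries.coeff_order_eq_zero, coeff_jq_of_lt (by omega)]
  exact ⟨horder, by rw [HahnSeries.leadingCoeff_eq, horder, coeff_jq_neg_one]⟩

variable (N : ℕ) [NeZero N]

/-- **K1.** The order at `∞` is the `q`-adic order. -/
theorem ord_cuspInfty (f : FB N) :
    (cuspInfty N).ord f = (f : LaurentSeries Qb).order := by
  have hσ : Fermat.Agent.S24.H144.Induces (K := Qb) (inclQ N) (cuspInfty N) :=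
    Fermat.Agent.S24.H144.induces_placeOfEmb _ _ _
  obtain ⟨g, hg, h⟩ := Fermat.Agent.S24.H144.loc_exists_mult (cuspInfty N) (inclQ N) hσ
  have hj := h (jBar N)
  rw [inclQ_apply, coe_jBar, order_coeffEmb_jq] at hj
  have hg1 : (g : ℤ) = 1 := by
    have hdvd : (g : ℤ) ∣ 1 := ⟨-(cuspInfty N).ord (jBar N), by linarith⟩
    have hg0 : (0 : ℤ) ≤ g := by positivity
    exact Int.eq_one_of_dvd_one hg0 hdvd
  have hf := h f
  rw [hg1, one_mul, inclQ_apply] at hf
  exact hf.symm

theorem ord_cuspInfty_jBar : (cuspInfty N).ord (jBar N) = -1 := by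
  rw [ord_cuspInfty, coe_jBar, order_coeffEmb_jq]

theorem ord_cuspInfty_jLevelBar : (cuspInfty N).ord (jLevelBar N) = -(N : ℤ) := by
  rw [ord_cuspInfty, coe_jLevelBar, order_coeffEmb, (isMonicOfOrder_jq.qExpand N).1]
  ring

theorem jBar_eq_jFd : jBar N = jFd N 1 (one_dvd N) := by
  apply Subtype.ext
  rw [coe_jBar, coe_jFd, qExpand_one_apply]

theorem jLevelBar_eq_jFd : jLevelBar N = jFd N N dvd_rfl := by
  apply Subtype.ext
  rw [coe_jLevelBar, coe_jFd]

/-- `w j = j(q^N)`. -/
theorem wF_jBar : wF N (jBar N) = jLevelBar N := by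
  have hne : NeZero (N / 1) := neZero_div N (one_dvd N)
  rw [jBar_eq_jFd, jLevelBar_eq_jFd]
  have h := wF_jFd N 1 (one_dvd N)
  rw [h]
  apply Subtype.ext
  rw [coe_jFd, coe_jFd]
  exact congrArg _ (qExpand_congr (Nat.div_one N) jq)

/-- `w j(q^N) = j`. -/
theorem wF_jLevelBar : wF N (jLevelBar N) = jBar N := by
  rw [← wF_jBar, wF_wF]

theorem ord_cuspZero_jBar : (cuspZero N).ord (jBar N) = -(N : ℤ) := by
  rw [ord_cuspZero, wF_jBar, ord_cuspInfty_jLevelBar]

theorem ord_cuspZero_jLevelBar : (cuspZero N).ord (jLevelBar N) = -1 := by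
  rw [ord_cuspZero, wF_jLevelBar, ord_cuspInfty_jBar]

theorem cuspZero_ne_cuspInfty (hN : 1 < N) : cuspZero N ≠ cuspInfty N := by
  intro h
  have h1 := ord_cuspZero_jBar N
  rw [h, ord_cuspInfty_jBar] at h1
  omega

/-- **K9.** The cusp `0` is a pole of `j` different from `∞`. -/
theorem isCuspZero_cuspZero (hN : 1 < N) : Fermat.Agent.S15.Core.IsCuspZero N (cuspZero N) := by
  refine ⟨?_, ?_⟩
  · rw [← cuspInfty_eq_core]
    exact cuspZero_ne_cuspInfty N hN
  · have h : Fermat.Agent.S15.Core.jBar N = jBar N := rfl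
    rw [h, ord_cuspZero_jBar]
    have : (0 : ℤ) < N := by exact_mod_cast Nat.pos_of_ne_zero (NeZero.ne N)
    omega

end Fermat.Agent.S15.H362
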