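import Fermat.Agent.S15.H362.CuspHecke
import Fermat.Agent.S15.H422.CuspUnit
import Fermat.Agent.S15.H242.OggBound
import Fermat.Agent.S15.Skeleton

/-!
# S15 / piece CUSP (architect helper362): **NODE CUSP CLOSED**

Assembly of the nodes K1–K9 (helper362, helper422, helper482, helper242, helper62):

* `cuspStatement (hp : p.Prime) : Core.CuspStatement p` — the node CUSP of `Core/Top.lean`;
* `cusp_geo_part` — the CUSP part of `GeoStatement` / `GeoWeak` of `Skeleton.lean`:
  for a prime `p ∉ {2, 3, 5, 7, 13}` the class `c = cl((0) - (∞)) ∈ J₀(p)` is Galois-fixed,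
  `c ≠ 0`, `(p - 1) c = 0` and `T_q c = (1 + q) c` for all primes `q ≠ p`.

Sorry-free.
-/

set_option autoImplicit false
set_option synthInstance.maxHeartbeats 400000

noncomputable section

open AlgebraicCurve ModularCurve HahnSeries

namespace Fermat.Agent.S15.H362

open Fermat.Agent.S15.Core

variable (p : ℕ) [NeZero p]

/-- **K7** (Ogg, lower bound). `m • c = 0 → n ∣ m`, `n = num((p-1)/12)`. -/
theorem eisensteinNumerator_dvd_of_smul_cuspClass (hp : p.Prime) (m : ℕ)
    (h : m • cuspClass p = 0) : eisensteinNumerator p ∣ m := by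
  refine Fermat.Agent.S15.H242.eisensteinNumerator_dvd_of_nsmul_eq_zero p hp
    (Fermat.Agent.S15.H422.unitBar p hp) rfl (cuspDivisor p) ?_ m h
  intro v
  rw [← Fermat.Agent.S15.H422.ord_unitBar_eq p hp v, coe_cuspDivisor, Finsupp.smul_apply,
    smul_eq_mul, Nat.cast_sub hp.one_le, Nat.cast_one]

/-- **K6** (helper422). -/
theorem pred_smul_cuspClass' (hp : p.Prime) : (p - 1) • cuspClass p = 0 :=
  Fermat.Agent.S15.H422.pred_smul_cuspClass p hp

theorem addOrderOf_cuspClass_ne_zero (hp : p.Prime) : addOrderOf (cuspClass p) ≠ 0 := by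
  have h1 : 0 < p - 1 := by have := hp.two_le; omega
  have h2 := addOrderOf_dvd_of_nsmul_eq_zero (pred_smul_cuspClass' p hp)
  exact fun h0 => h1.ne' (by simpa [h0] using h2)

theorem eisensteinNumerator_dvd_addOrderOf_cuspClass (hp : p.Prime) :
    eisensteinNumerator p ∣ addOrderOf (cuspClass p) :=
  eisensteinNumerator_dvd_of_smul_cuspClass p hp _ (addOrderOf_nsmul_eq_zero _)

/-- **NODE CUSP** of `Fermat/Agent/S15/Core/Top.lean`. -/
theorem cuspStatement (hp : p.Prime) : CuspStatement p :=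
  ⟨cuspZero p, cuspClass p, isCuspZero_cuspZero p hp.one_lt, isDiffClass_cuspClass p,
    isEisensteinClass_cuspClass p hp, addOrderOf_cuspClass_ne_zero p hp,
    fun _ _ hr => hr.trans (eisensteinNumerator_dvd_addOrderOf_cuspClass p hp)⟩

theorem one_lt_eisensteinNumerator {p : ℕ} (hp : p.Prime)
    (hp' : p ∉ ({2, 3, 5, 7, 13} : Finset ℕ)) : 1 < eisensteinNumerator p := by
  have hg : 0 < Nat.gcd (p - 1) 12 := Nat.gcd_pos_of_pos_right _ (by norm_num)
  have hG : Nat.gcd (p - 1) 12 ∣ p - 1 := Nat.gcd_dvd_left _ _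
  have hn : eisensteinNumerator p * Nat.gcd (p - 1) 12 = p - 1 := by
    unfold eisensteinNumerator
    exact Nat.div_mul_cancel hG
  have h2 := hp.two_le
  by_contra hlt
  rw [not_lt] at hlt
  rcases Nat.le_one_iff_eq_zero_or_eq_one.mp hlt with h0 | h1
  · rw [h0, zero_mul] at hn
    omega
  · rw [h1, one_mul] at hn
    have h12 : p - 1 ∣ 12 := by
      rw [← hn]; exact Nat.gcd_dvd_right _ _
    have hle : p - 1 ≤ 12 := Nat.le_of_dvd (by norm_num) h12
    have hp13 : p ≤ 13 := by omega
    simp only [Finset.mem_insert, Finset.mem_singleton, not_or] at hp'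
    obtain ⟨a2, a3, a5, a7, a13⟩ := hp'
    interval_cases p
    all_goals first
      | omega
      | exact absurd hp (by decide)

/-- The cuspidal class is non-zero for `p ∉ {2, 3, 5, 7, 13}`. -/
theorem cuspClass_ne_zero (hp : p.Prime) (hp' : p ∉ ({2, 3, 5, 7, 13} : Finset ℕ)) :
    cuspClass p ≠ 0 := by
  intro h0
  have h1 : (1 : ℕ) • cuspClass p = 0 := by rw [one_smul, h0]
  have := Nat.le_of_dvd Nat.one_pos (eisensteinNumerator_dvd_of_smul_cuspClass p hp 1 h1)
  have := one_lt_eisensteinNumerator hp hp'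
  omega

/-- The cuspidal class is an Eisenstein vector in the sense of `Skeleton.lean`. -/
theorem isEisensteinVector_cuspClass (hp : p.Prime) :
    Fermat.Agent.S15.IsEisensteinVector p (cuspClass p) :=
  fun q hq => heckeOperatorBar_cuspClass_nsmul p hp q hq

/-- **The CUSP part of `GeoStatement` / `GeoWeak`** (`Skeleton.lean`, `TopWeak.lean`). -/
theorem cusp_geo_part (hp : p.Prime) (hp' : p ∉ ({2, 3, 5, 7, 13} : Finset ℕ)) :
    (∀ σ : Fermat.Agent.S15.Gal, σ • cuspClass p = cuspClass p) ∧ cuspClass p ≠ 0 ∧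
      (p - 1) • cuspClass p = 0 ∧ Fermat.Agent.S15.IsEisensteinVector p (cuspClass p) :=
  ⟨galois_smul_cuspClass p, cuspClass_ne_zero p hp hp', pred_smul_cuspClass' p hp,
    isEisensteinVector_cuspClass p hp⟩

end Fermat.Agent.S15.H362
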