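import Fermat.Agent.S15.H362.CuspRatio
import Fermat.Agent.Lib.FF398.HeckeDiv

/-!
# S15 / piece CUSP (helper362): the cusps of `X₀(pℓ)` over the cusps of `X₀(p)`

For distinct primes `p`, `ℓ` and a place `W` of `ℚ̄(X₀(pℓ))`:
`W|_β = ∞ → W|_α = ∞` and `W|_β = 0 → W|_α = 0`, where `α, β : ℚ̄(X₀(p)) → ℚ̄(X₀(pℓ))` are the two
degeneracy maps (`α` the inclusion, `β : q ↦ q^ℓ`).

Proof: the four functions `j(q), j(q^ℓ), j(q^p), j(q^{pℓ})` of level `pℓ` are the images of
`j, j_p` under `α, β` and of `j, j_ℓ` under the two degeneracy maps `γ, δ` from level `ℓ`; the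
ratio lemma (`cusp_ratio`) for the four maps gives four relations between the pole orders,
which exclude the mixed cases.

Sorry-free.
-/

set_option autoImplicit false
set_option synthInstance.maxHeartbeats 400000
set_option linter.style.haveILetI false

noncomputable section

open AlgebraicCurve ModularCurve HahnSeries

namespace Fermat.Agent.S15.H362

/-- `coeffEmb` commutes with `q ↦ q^n`. -/
theorem coeffEmb_qExpand_h362 (n : ℕ) [NeZero n] (x : LaurentSeries ℚ) :
    coeffEmb Qb (qExpand ℚ n x) = qExpand Qb n (coeffEmb Qb x) := by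
  ext k
  by_cases hk : (n : ℤ) ∣ k
  · obtain ⟨m, rfl⟩ := hk
    rw [coeffEmb_coeff, qExpand_coeff_mul, qExpand_coeff_mul, coeffEmb_coeff]
  · rw [coeffEmb_coeff, qExpand_coeff_of_not_dvd n _ hk, qExpand_coeff_of_not_dvd n _ hk,
      map_zero]

theorem FB_congr {a b : ℕ} [NeZero a] [NeZero b] (h : a = b) :
    modularFunctionFieldBar a = modularFunctionFieldBar b := by
  subst h; rfl

variable (p ℓ : ℕ) [NeZero p] [NeZero ℓ]

/-- The identification `ℚ̄(X₀(ℓp)) = ℚ̄(X₀(pℓ))`. -/
def castLevel : FB (ℓ * p) →ₐ[Qb] FB (p * ℓ) :=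
  IntermediateField.inclusion (le_of_eq (FB_congr (Nat.mul_comm ℓ p)))

/-- The inclusion `ℚ̄(X₀(ℓ)) → ℚ̄(X₀(pℓ))`. -/
def gammaL : FB ℓ →ₐ[Qb] FB (p * ℓ) := (castLevel p ℓ).comp (heckeAlphaBar Qb ℓ p)

/-- The map `q ↦ q^p : ℚ̄(X₀(ℓ)) → ℚ̄(X₀(pℓ))`. -/
def deltaL : FB ℓ →ₐ[Qb] FB (p * ℓ) := (castLevel p ℓ).comp (heckeBetaBar Qb ℓ p)

theorem coe_castLevel (x : FB (ℓ * p)) :
    ((castLevel p ℓ x : FB (p * ℓ)) : LaurentSeries Qb) = (x : LaurentSeries Qb) :=
  IntermediateField.coe_inclusion _ x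

theorem coe_gammaL (x : FB ℓ) :
    ((gammaL p ℓ x : FB (p * ℓ)) : LaurentSeries Qb) = (x : LaurentSeries Qb) := by
  rw [gammaL, AlgHom.comp_apply, coe_castLevel, coe_heckeAlphaBar]

theorem coe_deltaL (x : FB ℓ) :
    ((deltaL p ℓ x : FB (p * ℓ)) : LaurentSeries Qb) = qExpand Qb p (x : LaurentSeries Qb) := by
  rw [deltaL, AlgHom.comp_apply, coe_castLevel, coe_heckeBetaBar]

theorem gammaL_integral : (gammaL p ℓ).toRingHom.IsIntegral := by
  obtain ⟨h, -⟩ := Fermat.Agent.Lib.FF398.heckeInputs_general (gammaL p ℓ) (deltaL p ℓ)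
    (Fermat.Agent.S24.jF ℓ) (Fermat.Agent.Lib.FF398.transcendental_jF ℓ)
    (Fermat.Agent.S24.jF (p * ℓ)) (Fermat.Agent.Lib.FF398.transcendental_jF (p * ℓ))
  exact h

theorem deltaL_integral : (deltaL p ℓ).toRingHom.IsIntegral := by
  obtain ⟨-, h, -⟩ := Fermat.Agent.Lib.FF398.heckeInputs_general (gammaL p ℓ) (deltaL p ℓ)
    (Fermat.Agent.S24.jF ℓ) (Fermat.Agent.Lib.FF398.transcendental_jF ℓ)
    (Fermat.Agent.S24.jF (p * ℓ)) (Fermat.Agent.Lib.FF398.transcendental_jF (p * ℓ))
  exact h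

/-! ### The four `j`-functions of level `pℓ` -/

theorem alpha_jBar : heckeAlphaBar Qb p ℓ (jBar p) = gammaL p ℓ (jBar ℓ) := by
  apply Subtype.ext
  rw [coe_heckeAlphaBar, coe_gammaL, coe_jBar, coe_jBar]

theorem beta_jBar : heckeBetaBar Qb p ℓ (jBar p) = gammaL p ℓ (jLevelBar ℓ) := by
  apply Subtype.ext
  rw [coe_heckeBetaBar, coe_gammaL, coe_jBar, coe_jLevelBar, coeffEmb_qExpand_h362]

theorem alpha_jLevelBar : heckeAlphaBar Qb p ℓ (jLevelBar p) = deltaL p ℓ (jBar ℓ) := by
  apply Subtype.ext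
  rw [coe_heckeAlphaBar, coe_deltaL, coe_jBar, coe_jLevelBar, coeffEmb_qExpand_h362]

theorem beta_jLevelBar : heckeBetaBar Qb p ℓ (jLevelBar p) = deltaL p ℓ (jLevelBar ℓ) := by
  apply Subtype.ext
  rw [coe_heckeBetaBar, coe_deltaL, coe_jLevelBar, coe_jLevelBar, coeffEmb_qExpand_h362,
    coeffEmb_qExpand_h362, qExpand_qExpand, qExpand_qExpand]
  exact qExpand_congr (Nat.mul_comm ℓ p) _

/-! ### The key lemma -/

/-- Arithmetic core, case `β ↦ ∞`, `α ↦ 0`. -/
theorem no_mixed_cusp_aux {P L a b c d : ℤ} (hP : 1 < P) (hL : 1 < L) (hPL : P ≠ L)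
    (hc : c < 0)
    (h1 : d = P * b) (h2 : a = P * c)
    (h3 : b = L * a ∨ a = L * b) (h4 : d = L * c ∨ c = L * d) : False := by
  have hP2 : 1 < P * P := by nlinarith
  have hL2 : 1 < L * L := by nlinarith
  rcases h3 with h3 | h3 <;> rcases h4 with h4 | h4
  · -- d = P b = P L a = P L P c,  d = L c
    have h : (P * P - 1) * (L * c) = 0 := by
      have : d = P * (L * (P * c)) := by rw [h1, h3, h2]
      rw [h4] at this
      linear_combination -this
    rcases mul_eq_zero.mp h with h | h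
    · omega
    · rcases mul_eq_zero.mp h with h | h <;> omega
  · -- c = L d = L P b = L P L a = L P L P c
    have h : (P * P * (L * L) - 1) * c = 0 := by
      have : c = L * (P * (L * (P * c))) := by
        conv_lhs => rw [h4, h1, h3, h2]
      linear_combination -this
    have hPL2 : 1 < P * P * (L * L) := by nlinarith
    rcases mul_eq_zero.mp h with h | h <;> omega
  · -- a = L b, a = P c, d = P b, d = L c:  L a = L P c = P d = P P b, and L a = L L b
    have hb : b < 0 := by
      by_contra hb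
      rw [not_lt] at hb
      have : 0 ≤ L * b := mul_nonneg (by omega) hb
      have : P * c < 0 := mul_neg_of_pos_of_neg (by omega) hc
      omega
    have h : (L * L - P * P) * b = 0 := by
      have e1 : L * b = P * c := by rw [← h3, h2]
      have e2 : P * b = L * c := by rw [← h1, h4]
      linear_combination L * e1 - P * e2
    rcases mul_eq_zero.mp h with h | h
    · have h' : (L - P) * (L + P) = 0 := by linear_combination h
      rcases mul_eq_zero.mp h' with h' | h' <;> omega
    · omega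
  · -- a = L b, c = L d, d = P b, a = P c: a = P c = P L d = P L P b, a = L b
    have hb : b < 0 := by
      by_contra hb
      rw [not_lt] at hb
      have : 0 ≤ L * b := mul_nonneg (by omega) hb
      have : P * c < 0 := mul_neg_of_pos_of_neg (by omega) hc
      omega
    have h : (P * P - 1) * (L * b) = 0 := by
      have : a = P * (L * (P * b)) := by
        conv_lhs => rw [h2, h4, h1]
      rw [h3] at this
      linear_combination -this
    rcases mul_eq_zero.mp h with h | h
    · omega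
    · rcases mul_eq_zero.mp h with h | h <;> omega

end Fermat.Agent.S15.H362
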