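import Fermat.Agent.S15.H362.CuspTwo

/-!
# S15 / piece CUSP (helper362): the ratio lemma

Let `m` be a prime, `ι : ℚ̄(X₀(m)) → Z` an integral embedding into a function field and `W` a place
of `Z` at which `ι j` or `ι j(q^m)` has a pole.  Then `W` lies over `∞` or over `0`, and
accordingly `ord_W (ι j_m) = m · ord_W (ι j)` or `ord_W (ι j) = m · ord_W (ι j_m)`.

Sorry-free.
-/

set_option autoImplicit false
set_option synthInstance.maxHeartbeats 400000
set_option linter.style.haveILetI false

noncomputable section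

open AlgebraicCurve ModularCurve HahnSeries

namespace Fermat.Agent.S15.H362

variable {Z : Type*} [Field Z] [Algebra Qb Z]
variable (m : ℕ) [NeZero m]

/-- **Ratio lemma.** -/
theorem cusp_ratio (hm : m.Prime) (ι : FB m →ₐ[Qb] Z) (hι : ι.toRingHom.IsIntegral)
    (W : Place Qb Z)
    (h : W.ord (ι (jBar m)) < 0 ∨ W.ord (ι (jLevelBar m)) < 0) :
    (W.restrictAlong ι hι = cuspInfty m ∧ W.ord (ι (jBar m)) < 0 ∧
        W.ord (ι (jLevelBar m)) = m * W.ord (ι (jBar m))) ∨
      (W.restrictAlong ι hι = cuspZero m ∧ W.ord (ι (jLevelBar m)) < 0 ∧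
        W.ord (ι (jBar m)) = m * W.ord (ι (jLevelBar m))) := by
  have h1 := Place.ord_restrictAlong ι hι W (jBar m)
  have h2 := Place.ord_restrictAlong ι hι W (jLevelBar m)
  set e : ℕ := Place.ramificationIndexAlong ι W with he
  set P := W.restrictAlong ι hι with hP
  have hm0 : (0 : ℤ) < m := by exact_mod_cast hm.pos
  have he0 : (0 : ℤ) < e := by
    rcases Nat.eq_zero_or_pos e with h0 | h0
    · rw [h0] at h1 h2
      simp only [Nat.cast_zero, zero_mul] at h1 h2
      rw [h1, h2] at h
      omega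
    · exact_mod_cast h0
  have hcusp : P = cuspInfty m ∨ P = cuspZero m := by
    rcases h with h | h
    · refine eq_cusp_of_ord_jBar_neg m hm P ?_
      rw [h1] at h
      by_contra hc
      rw [not_lt] at hc
      have := mul_nonneg he0.le hc
      omega
    · refine eq_cusp_of_ord_jLevelBar_neg m hm P ?_
      rw [h2] at h
      by_contra hc
      rw [not_lt] at hc
      have := mul_nonneg he0.le hc
      omega
  rcases hcusp with e1 | e1
  · left
    rw [e1, ord_cuspInfty_jBar] at h1
    rw [e1, ord_cuspInfty_jLevelBar] at h2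
    refine ⟨e1, by rw [h1]; omega, ?_⟩
    rw [h1, h2]; ring
  · right
    rw [e1, ord_cuspZero_jBar] at h1
    rw [e1, ord_cuspZero_jLevelBar] at h2
    refine ⟨e1, by rw [h2]; omega, ?_⟩
    rw [h1, h2]; ring

/-- A place over `∞`: `ι j` has a pole and `ord (ι j_m) = m · ord (ι j)`. -/
theorem ord_of_restrict_eq_cuspInfty (ι : FB m →ₐ[Qb] Z) (hι : ι.toRingHom.IsIntegral)
    (W : Place Qb Z) (hW : W.restrictAlong ι hι = cuspInfty m) :
    W.ord (ι (jBar m)) < 0 ∧ W.ord (ι (jLevelBar m)) = m * W.ord (ι (jBar m)) := by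
  have h1 := Place.ord_restrictAlong ι hι W (jBar m)
  have h2 := Place.ord_restrictAlong ι hι W (jLevelBar m)
  rw [hW, ord_cuspInfty_jBar] at h1
  rw [hW, ord_cuspInfty_jLevelBar] at h2
  have he0 : 0 < Place.ramificationIndexAlong ι W := by
    letI := algebraAlong ι
    haveI := isScalarTower_along ι
    haveI := isIntegral_along ι hι
    exact Place.ramificationIndex_pos (F := FB m) W
  have he0' : (0 : ℤ) < (Place.ramificationIndexAlong ι W : ℤ) := by exact_mod_cast he0
  refine ⟨by rw [h1]; omega, ?_⟩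
  rw [h1, h2]; ring

/-- A place over `0`: `ι j_m` has a pole and `ord (ι j) = m · ord (ι j_m)`. -/
theorem ord_of_restrict_eq_cuspZero (ι : FB m →ₐ[Qb] Z) (hι : ι.toRingHom.IsIntegral)
    (W : Place Qb Z) (hW : W.restrictAlong ι hι = cuspZero m) :
    W.ord (ι (jLevelBar m)) < 0 ∧ W.ord (ι (jBar m)) = m * W.ord (ι (jLevelBar m)) := by
  have h1 := Place.ord_restrictAlong ι hι W (jBar m)
  have h2 := Place.ord_restrictAlong ι hι W (jLevelBar m)
  rw [hW, ord_cuspZero_jBar] at h1
  rw [hW, ord_cuspZero_jLevelBar] at h2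
  have he0 : 0 < Place.ramificationIndexAlong ι W := by
    letI := algebraAlong ι
    haveI := isScalarTower_along ι
    haveI := isIntegral_along ι hι
    exact Place.ramificationIndex_pos (F := FB m) W
  have he0' : (0 : ℤ) < (Place.ramificationIndexAlong ι W : ℤ) := by exact_mod_cast he0
  refine ⟨by rw [h2]; omega, ?_⟩
  rw [h1, h2]; ring

end Fermat.Agent.S15.H362
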