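import Fermat.Agent.S15.H362.CuspOrd
import Fermat.Agent.Lib.X0Branch.H997Branch

/-!
# S15 / piece CUSP (helper362): at prime level the only poles of `j` are the cusps `∞` and `0`

* `cuspCount_prime` : `cuspCount m = 2` for a prime `m`;
* `eq_cusp_of_ord_jBar_neg` (C4) : a place of `ℚ̄(X₀(m))`, `m` prime, at which `j` has a pole is
  `∞` or `0`;
* `eq_cusp_of_ord_jLevelBar_neg` : the same for `j(q^m)`.

Sorry-free.
-/

set_option autoImplicit false
set_option synthInstance.maxHeartbeats 400000

noncomputable section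

open AlgebraicCurve ModularCurve HahnSeries

namespace Fermat.Agent.S15.H362

open Fermat.Agent.A2.H528

theorem cuspCount_prime {m : ℕ} (hm : m.Prime) : cuspCount m = 2 := by
  unfold cuspCount
  rw [Nat.Prime.divisors hm, Finset.sum_pair hm.one_lt.ne]
  simp [Nat.div_self hm.pos]

variable (m : ℕ) [NeZero m]

theorem jBar_eq_jF : jBar m = Fermat.Agent.S24.jF m := rfl

/-- **C4.** At prime level, a pole of `j` is one of the two cusps `∞`, `0`. -/
theorem eq_cusp_of_ord_jBar_neg (hm : m.Prime) (P : Place Qb (FB m))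
    (h : P.ord (jBar m) < 0) : P = cuspInfty m ∨ P = cuspZero m := by
  classical
  obtain ⟨hfin, hcard, -⟩ := Fermat.Agent.Lib.X0Branch.places_inv m
  rw [cuspCount_prime hm, Nat.card_eq_card_finite_toFinset hfin] at hcard
  obtain ⟨x, y, hxy, hS⟩ := Finset.card_eq_two.mp hcard
  have hmem : ∀ v : Place Qb (FB m), v.ord (jBar m) < 0 → v = x ∨ v = y := by
    intro v hv
    have hv' : v ∈ hfin.toFinset := by
      rw [Set.Finite.mem_toFinset, Set.mem_ofPred_eq, ← jBar_eq_jF, Place.ord_inv]
      omega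
    rw [hS] at hv'
    simpa using hv'
  have h1 : (cuspInfty m).ord (jBar m) < 0 := by rw [ord_cuspInfty_jBar]; omega
  have hm0 : (0 : ℤ) < m := by exact_mod_cast hm.pos
  have h2 : (cuspZero m).ord (jBar m) < 0 := by rw [ord_cuspZero_jBar]; omega
  have hne := cuspZero_ne_cuspInfty m hm.one_lt
  rcases hmem _ h1 with e1 | e1 <;> rcases hmem _ h2 with e2 | e2 <;>
    rcases hmem P h with e3 | e3
  · exact absurd (e2.trans e1.symm) hne
  · exact absurd (e2.trans e1.symm) hne
  · exact Or.inl (e3.trans e1.symm)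
  · exact Or.inr (e3.trans e2.symm)
  · exact Or.inr (e3.trans e2.symm)
  · exact Or.inl (e3.trans e1.symm)
  · exact absurd (e2.trans e1.symm) hne
  · exact absurd (e2.trans e1.symm) hne

/-- `ord_{w P} f = ord_P (w f)`. -/
theorem ord_wSemi_smul (P : Place Qb (FB m)) (f : FB m) :
    (wSemi m • P).ord f = P.ord (wF m f) := by
  have h := SemilinearAut.ord_smul (wSemi m) P (wF m f)
  rw [wSemi_smul, wF_wF] at h
  exact h

/-- At prime level, a pole of `j(q^m)` is one of the two cusps `∞`, `0`. -/
theorem eq_cusp_of_ord_jLevelBar_neg (hm : m.Prime) (P : Place Qb (FB m))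
    (h : P.ord (jLevelBar m) < 0) : P = cuspInfty m ∨ P = cuspZero m := by
  have h' : (wSemi m • P).ord (jBar m) < 0 := by
    rw [ord_wSemi_smul, wF_jBar]; exact h
  have hP : wSemi m • (wSemi m • P) = P := by
    rw [← mul_smul, wSemi_mul_self, one_smul]
  rcases eq_cusp_of_ord_jBar_neg m hm _ h' with e | e
  · right
    rw [← hP, e]; rfl
  · left
    rw [← hP, e, wSemi_smul_cuspZero]

end Fermat.Agent.S15.H362
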