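import Fermat.Agent.S15.H362.CuspDefs
import Fermat.Agent.S15.Core.Top
import Fermat.Agent.A2.H528.FrickeGalois
import Fermat.Agent.Lib.FF398.HeckeDiv

/-!
# S15 / piece CUSP (architect helper362): the cusp `0` and the cuspidal class — definitions

On top of objects on main:
* `∞ = cuspInfty p` (`CuspDefs.lean`) `= Core.cuspInfty p = S17.H680.JZero.cusp p` (`cuspInfty_eq_core`);
* `w = A2.H528.wSemi p` (Fricke involution);
* `cuspZero p := w • ∞`, `cuspDivisor p = (0) - (∞)`, `cuspClass p : JZero p`.

Everything in this file is sorry-free.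
-/

set_option autoImplicit false
set_option synthInstance.maxHeartbeats 400000

noncomputable section

open AlgebraicCurve ModularCurve HahnSeries

namespace Fermat.Agent.S15.H362

open Fermat.Agent.A2.H528

variable (p : ℕ) [NeZero p]

/-- Our cusp `∞` is the one of `Core/Top.lean` (and of row S17). -/
theorem cuspInfty_eq_core : cuspInfty p = Fermat.Agent.S15.Core.cuspInfty p := by
  apply Place.ext
  ext f
  rfl

/-- **The cusp `0`**: the Fricke image of the cusp `∞`. -/
def cuspZero : Place Qb (FB p) := wSemi p • cuspInfty p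

theorem deg_cuspInfty : (cuspInfty p).deg = 1 :=
  Fermat.Agent.Lib.FF398.deg_eq_one_FF p (cuspInfty p)

theorem deg_cuspZero : (cuspZero p).deg = 1 :=
  Fermat.Agent.Lib.FF398.deg_eq_one_FF p (cuspZero p)

theorem galois_smul_cuspInfty (σ : Qb ≃ₐ[ℚ] Qb) :
    arithmeticGalois (modularFunctionFieldFull p) σ • cuspInfty p = cuspInfty p := by
  rw [cuspInfty_eq_core]
  exact Fermat.Agent.S17.H680.JZero.galois_smul_cusp p σ

theorem galois_smul_cuspZero (σ : Qb ≃ₐ[ℚ] Qb) :
    arithmeticGalois (modularFunctionFieldFull p) σ • cuspZero p = cuspZero p := by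
  rw [cuspZero, ← mul_smul, ← wSemi_comm, mul_smul, galois_smul_cuspInfty]

/-- `w • 0 = ∞`. -/
theorem wSemi_smul_cuspZero : wSemi p • cuspZero p = cuspInfty p := by
  rw [cuspZero, ← mul_smul, wSemi_mul_self, one_smul]

/-- `ord_0 f = ord_∞ (w f)`. -/
theorem ord_cuspZero (f : FB p) : (cuspZero p).ord f = (cuspInfty p).ord (wF p f) := by
  have h := SemilinearAut.ord_smul (wSemi p) (cuspInfty p) (wF p f)
  rw [wSemi_smul, wF_wF] at h
  exact h

theorem degree_cuspDivisor :
    Divisor.degree (Finsupp.single (cuspZero p) (1 : ℤ) - Finsupp.single (cuspInfty p) 1) = 0 := by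
  rw [map_sub, Divisor.degree_single, Divisor.degree_single, deg_cuspZero, deg_cuspInfty]
  simp

/-- The divisor `(0) - (∞)`. -/
def cuspDivisor : Divisor.degZero (K := Qb) (F := FB p) :=
  ⟨Finsupp.single (cuspZero p) (1 : ℤ) - Finsupp.single (cuspInfty p) 1, degree_cuspDivisor p⟩

@[simp] theorem coe_cuspDivisor :
    ((cuspDivisor p : Divisor.degZero (K := Qb) (F := FB p)) : Divisor Qb (FB p)) =
      Finsupp.single (cuspZero p) (1 : ℤ) - Finsupp.single (cuspInfty p) 1 := rfl

/-- **The cuspidal class** `c = cl((0) - (∞)) ∈ J₀(p)(ℚ̄)`. -/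
def cuspClass : JZero p := Pic0.mk (cuspDivisor p)

theorem isDiffClass_cuspClass :
    Fermat.Agent.S15.Core.IsDiffClass (cuspZero p) (Fermat.Agent.S15.Core.cuspInfty p)
      (cuspClass p) := by
  rw [← cuspInfty_eq_core]
  exact ⟨degree_cuspDivisor p, rfl⟩

/-- The cuspidal class is rational. -/
theorem galois_smul_cuspClass (σ : Qb ≃ₐ[ℚ] Qb) : σ • cuspClass p = cuspClass p := by
  rw [galois_smul_pic0_def, cuspClass, SemilinearAut.pic0_smul_mk]
  congr 1
  apply Subtype.ext
  rw [SemilinearAut.coe_degZeroSMulHom, coe_cuspDivisor, smul_sub, SemilinearAut.smul_single,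
    SemilinearAut.smul_single, galois_smul_cuspZero, galois_smul_cuspInfty]

end Fermat.Agent.S15.H362
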